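/-
Programme T1A (S19), brick 497 `G9-L LOCMODEL` (helper46), part 1.

Dictionary between the ARITHMETIC side
  `A := padicPlace ℓ : ValuationSubring ℚ̄`, `res := localGaloisToGlobal ℓ`, `ι := padicEmbedding ℓ`
  (Prelude `Def_GaloisRep_CompletionBridge`)
and the LOCAL MODEL of `TW/B5/Iface` (`Kbar ℓ`, `Gp ℓ`, `intSubring`, `IsInertial`) and `LG83W.muField`.

* (L1) `liesOverPrime`            : `(padicPlace ℓ).LiesOverPrime ℓ`
* (L2) `res_mem_iff`              : `res σ x ∈ A ↔ x ∈ A`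
* (L3) `valuation_le_one_iff`, `valuation_lt_one_iff`, `valuation_sub_lt_one_iff`
* (L5) `exists_finite_field`      : `ι(L)` lies in a finite extension of `ℚ_ℓ` (`L` a number field)
* (L6) `iota_root_mem_muField`, `iota_mem_muField_of_mem_adjoin`, `iota_mem_intSubring_muField`
* (L7) `res_root_eq_of_fixes_muField`, `res_eq_of_fixes_muField`
* (L8) `valuation_res_sub_lt_one`, `res_mem_inertiaSubgroupIn`
-/
import Mathlib
import Fermat.Prelude.Def_GaloisRep_CompletionBridge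
import Fermat.Agent.TW.B5.Iface
import Fermat.Agent.TW.B5.LG83W

set_option autoImplicit false

open scoped NNReal
open Fermat.Agent.TW.B5.Iface Fermat.Agent.TW.B5.LG83W

namespace Fermat.Agent.T1.LocModel46

local notation "Qbar" => AlgebraicClosure ℚ

variable (ℓ : ℕ) [Fact ℓ.Prime]

/-! ### Norms and the place -/

theorem mem_place_iff_norm {x : Qbar} : x ∈ padicPlace ℓ ↔ ‖padicEmbedding ℓ x‖ ≤ 1 := by
  rw [mem_padicPlace_iff]
  exact Iff.rfl

theorem iota_injective : Function.Injective (padicEmbedding ℓ) :=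
  (padicEmbedding ℓ).toRingHom.injective

/-- (L3, `≤`). -/
theorem valuation_le_one_iff {x : Qbar} :
    (padicPlace ℓ).valuation x ≤ 1 ↔ ‖padicEmbedding ℓ x‖ ≤ 1 := by
  rw [ValuationSubring.valuation_le_one_iff, mem_place_iff_norm]

/-- (L3, `<`). -/
theorem valuation_lt_one_iff {x : Qbar} :
    (padicPlace ℓ).valuation x < 1 ↔ ‖padicEmbedding ℓ x‖ < 1 := by
  by_cases hx : x = 0
  · subst hx
    simp
  · have hx' : padicEmbedding ℓ x ≠ 0 := fun h => hx (iota_injective ℓ (by rw [h, map_zero]))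
    rw [← not_le, ← not_le, Valuation.one_le_val_iff _ hx, valuation_le_one_iff, map_inv₀, norm_inv]
    rw [not_iff_not]
    have hpos : 0 < ‖padicEmbedding ℓ x‖ := norm_pos_iff.2 hx'
    rw [inv_le_one₀ hpos]

/-- (L3) for differences. -/
theorem valuation_sub_lt_one_iff {a b : Qbar} :
    (padicPlace ℓ).valuation (a - b) < 1 ↔ ‖padicEmbedding ℓ a - padicEmbedding ℓ b‖ < 1 := by
  rw [valuation_lt_one_iff, map_sub]

theorem norm_natCast_self : ‖((ℓ : ℕ) : Kbar ℓ)‖ = (ℓ : ℝ)⁻¹ := by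
  have h : ((ℓ : ℕ) : Kbar ℓ) = algebraMap ℚ_[ℓ] (PadicAlgCl ℓ) (ℓ : ℚ_[ℓ]) := by simp
  rw [h, PadicAlgCl.norm_extends, Padic.norm_p]

theorem norm_natCast_self_lt_one : ‖((ℓ : ℕ) : Kbar ℓ)‖ < 1 := by
  rw [norm_natCast_self]
  exact inv_lt_one_of_one_lt₀ (by exact_mod_cast (Fact.out : ℓ.Prime).one_lt)

theorem norm_natCast_self_pos : 0 < ‖((ℓ : ℕ) : Kbar ℓ)‖ := by
  rw [norm_natCast_self]
  exact inv_pos.2 (by exact_mod_cast (Fact.out : ℓ.Prime).pos)

/-- (L1) -/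
theorem liesOverPrime : (padicPlace ℓ).LiesOverPrime ℓ := by
  show ((ℓ : ℕ) : Qbar) ∈ (padicPlace ℓ).nonunits
  rw [ValuationSubring.mem_nonunits_iff, valuation_lt_one_iff, map_natCast]
  exact norm_natCast_self_lt_one ℓ

/-! ### The Galois action -/

theorem iota_res (σ : Gp ℓ) (x : Qbar) :
    padicEmbedding ℓ (localGaloisToGlobal ℓ σ x) = σ (padicEmbedding ℓ x) :=
  padicEmbedding_localGaloisToGlobal ℓ σ x

theorem norm_gal (σ : Gp ℓ) (y : Kbar ℓ) : ‖σ y‖ = ‖y‖ := by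
  have := nnnorm_padicAlgCl_algEquiv ℓ σ y
  exact congrArg NNReal.toReal this

/-- (L2) -/
theorem res_mem_iff (σ : Gp ℓ) (x : Qbar) :
    localGaloisToGlobal ℓ σ x ∈ padicPlace ℓ ↔ x ∈ padicPlace ℓ := by
  rw [mem_place_iff_norm, mem_place_iff_norm, iota_res, norm_gal]

/-- (L8) -/
theorem valuation_res_sub_lt_one {τ : Gp ℓ} (hτ : IsInertial ℓ τ) {a : Qbar} (ha : a ∈ padicPlace ℓ) :
    (padicPlace ℓ).valuation (localGaloisToGlobal ℓ τ a - a) < 1 := by
  rw [valuation_sub_lt_one_iff, iota_res]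
  exact hτ _ ((mem_place_iff_norm ℓ).1 ha)

/-- (L8'), group form: the image of an inertial element lies in the inertia subgroup of the place. -/
theorem res_mem_inertiaSubgroupIn {τ : Gp ℓ} (hτ : IsInertial ℓ τ) :
    localGaloisToGlobal ℓ τ ∈ (padicPlace ℓ).inertiaSubgroupIn ℚ := by
  have hdec := localGaloisToGlobal_mem_decompositionSubgroup ℓ τ
  rw [ValuationSubring.inertiaSubgroupIn, Subgroup.mem_map]
  refine ⟨⟨localGaloisToGlobal ℓ τ, hdec⟩, ?_, rfl⟩
  rw [ValuationSubring.inertiaSubgroup, MonoidHom.mem_ker]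
  ext x
  obtain ⟨a, rfl⟩ := IsLocalRing.residue_surjective x
  show (⟨localGaloisToGlobal ℓ τ, hdec⟩ : (padicPlace ℓ).decompositionSubgroup ℚ) •
      IsLocalRing.residue (padicPlace ℓ) a = IsLocalRing.residue (padicPlace ℓ) a
  rw [← IsLocalRing.ResidueField.residue_smul]
  rw [← sub_eq_zero, ← map_sub, IsLocalRing.residue_eq_zero_iff, IsLocalRing.mem_maximalIdeal,
    mem_nonunits_iff]
  intro hu
  have h1 := valuation_res_sub_lt_one ℓ hτ a.2
  have h2 : (padicPlace ℓ).valuation (localGaloisToGlobal ℓ τ (a : Qbar) - (a : Qbar)) = 1 := by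
    have := (ValuationSubring.valuation_eq_one_iff (padicPlace ℓ) _).1 hu
    exact this
  rw [h2] at h1
  exact lt_irrefl _ h1

/-! ### Finite fields: (L5) -/

theorem isScalarTower_rat : IsScalarTower ℚ ℚ_[ℓ] (Kbar ℓ) :=
  IsScalarTower.of_algebraMap_eq' (Subsingleton.elim _ _)

attribute [local instance] isScalarTower_rat

/-- (L5): the image of a number field lies in a finite extension of `ℚ_ℓ`. -/
theorem exists_finite_field (L : IntermediateField ℚ Qbar) [FiniteDimensional ℚ L] :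
    ∃ E : IntermediateField ℚ_[ℓ] (Kbar ℓ), FiniteDimensional ℚ_[ℓ] E ∧
      ∀ x : L, padicEmbedding ℓ (x : Qbar) ∈ E := by
  classical
  let b := Module.finBasis ℚ L
  let S : Set (Kbar ℓ) := Set.range fun i => padicEmbedding ℓ ((b i : L) : Qbar)
  have hS : S.Finite := Set.finite_range _
  have hfd : FiniteDimensional ℚ_[ℓ] (IntermediateField.adjoin ℚ_[ℓ] S) := by
    have : Finite S := hS
    exact IntermediateField.finiteDimensional_adjoin
      (fun x _ => ((PadicAlgCl.isAlgebraic ℓ).isAlgebraic x).isIntegral)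
  refine ⟨IntermediateField.adjoin ℚ_[ℓ] S, hfd, fun x => ?_⟩
  have hx : x = ∑ i, b.repr x i • b i := (b.sum_repr x).symm
  have h2 : padicEmbedding ℓ (x : Qbar) =
      ∑ i, (algebraMap ℚ (Kbar ℓ) (b.repr x i)) * padicEmbedding ℓ ((b i : L) : Qbar) := by
    conv_lhs => rw [hx]
    rw [AddSubmonoidClass.coe_finsetSum, map_sum]
    refine Finset.sum_congr rfl fun i _ => ?_
    rw [IntermediateField.coe_smul, Algebra.smul_def, map_mul, AlgHom.commutes]
  rw [h2]
  refine sum_mem fun i _ => mul_mem ?_ (IntermediateField.subset_adjoin _ _ ⟨i, rfl⟩)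
  rw [IsScalarTower.algebraMap_apply ℚ ℚ_[ℓ] (Kbar ℓ)]
  exact IntermediateField.algebraMap_mem _ _

/-! ### Roots of unity: (L6), (L7) -/

/-- (L6) for a root of unity. -/
theorem iota_root_mem_muField {m : ℕ} {ζ : Qbar} (hζ : ζ ^ m = 1) :
    padicEmbedding ℓ ζ ∈ muField ℓ m :=
  mem_muField ℓ (by rw [← map_pow, hζ, map_one])

/-- The elements of `ℚ̄` whose image lies in a given intermediate field of `K̄/ℚ_ℓ`. -/
noncomputable def pullField (E : IntermediateField ℚ_[ℓ] (Kbar ℓ)) : IntermediateField ℚ Qbar :=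
  (E.restrictScalars ℚ).comap (padicEmbedding ℓ)

theorem mem_pullField {E : IntermediateField ℚ_[ℓ] (Kbar ℓ)} {x : Qbar} :
    x ∈ pullField ℓ E ↔ padicEmbedding ℓ x ∈ E := Iff.rfl

/-- (L6) for the field generated by any set of `m`-th roots of unity. -/
theorem iota_mem_muField_of_mem_adjoin {m : ℕ} {S : Set Qbar} (hS : ∀ ζ ∈ S, ζ ^ m = 1)
    {x : Qbar} (hx : x ∈ IntermediateField.adjoin ℚ S) : padicEmbedding ℓ x ∈ muField ℓ m := by
  have h : IntermediateField.adjoin ℚ S ≤ pullField ℓ (muField ℓ m) :=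
    IntermediateField.adjoin_le_iff.2 fun ζ hζ => iota_root_mem_muField ℓ (hS ζ hζ)
  exact h hx

/-- The `m`-th cyclotomic field inside `ℚ̄`. -/
noncomputable def cycloField (m : ℕ) : IntermediateField ℚ Qbar :=
  IntermediateField.adjoin ℚ {ζ : Qbar | ζ ^ m = 1}

theorem iota_mem_muField_of_mem_cycloField {m : ℕ} {x : Qbar} (hx : x ∈ cycloField m) :
    padicEmbedding ℓ x ∈ muField ℓ m :=
  iota_mem_muField_of_mem_adjoin ℓ (fun _ h => h) hx

/-- (L6), integral form. -/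
theorem iota_mem_intSubring_of_mem {E : IntermediateField ℚ_[ℓ] (Kbar ℓ)} {x : Qbar}
    (hxE : padicEmbedding ℓ x ∈ E) (hx : x ∈ padicPlace ℓ) :
    padicEmbedding ℓ x ∈ intSubring ℓ E :=
  ⟨hxE, (mem_place_iff_norm ℓ).1 hx⟩

theorem iota_mem_intSubring_muField {m : ℕ} {S : Set Qbar} (hS : ∀ ζ ∈ S, ζ ^ m = 1)
    {x : Qbar} (hx : x ∈ IntermediateField.adjoin ℚ S) (hxA : x ∈ padicPlace ℓ) :
    padicEmbedding ℓ x ∈ intSubring ℓ (muField ℓ m) :=
  iota_mem_intSubring_of_mem ℓ (iota_mem_muField_of_mem_adjoin ℓ hS hx) hxA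

/-- (L7), general form: `σ` fixing `E` pointwise, `ι x ∈ E` ⇒ `res σ x = x`. -/
theorem res_eq_of_fixes {E : IntermediateField ℚ_[ℓ] (Kbar ℓ)} {σ : Gp ℓ}
    (hσ : ∀ e ∈ E, σ e = e) {x : Qbar} (hx : padicEmbedding ℓ x ∈ E) :
    localGaloisToGlobal ℓ σ x = x :=
  iota_injective ℓ (by rw [iota_res, hσ _ hx])

/-- (L7) for roots of unity. -/
theorem res_root_eq_of_fixes_muField {m : ℕ} {σ : Gp ℓ} (hσ : ∀ e ∈ muField ℓ m, σ e = e)
    {ζ : Qbar} (hζ : ζ ^ m = 1) : localGaloisToGlobal ℓ σ ζ = ζ :=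
  res_eq_of_fixes ℓ hσ (iota_root_mem_muField ℓ hζ)

/-- (L7) for the field generated by `m`-th roots of unity. -/
theorem res_eq_of_fixes_muField {m : ℕ} {σ : Gp ℓ} (hσ : ∀ e ∈ muField ℓ m, σ e = e)
    {S : Set Qbar} (hS : ∀ ζ ∈ S, ζ ^ m = 1) {x : Qbar} (hx : x ∈ IntermediateField.adjoin ℚ S) :
    localGaloisToGlobal ℓ σ x = x :=
  res_eq_of_fixes ℓ hσ (iota_mem_muField_of_mem_adjoin ℓ hS hx)

end Fermat.Agent.T1.LocModel46
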