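/-
Programme T1A (S19), brick 497 `G9-L LOCMODEL` (helper46), part 2: (L4).

`L ⊂ ℚ̄` an intermediate field, `O := AK (padicPlace ℓ) L = A ∩ L` (RED.Interface4; a DVR with finite
residue field when `L` is a number field, `RED/DESC/NumberFieldDVR27`).

* (L4c) `mem_maximalIdeal_AK_iff` : `c ∈ 𝔪_O ↔ ‖ι c‖ < 1`
* (L4b) `norm_le_pow_iff`         : `‖ι c‖ ≤ ‖ℓ‖ ^ n ↔ c ∈ (ℓ ^ n)`
* (L4a) `exists_ramificationIdx`  : `∃ e ≥ 1, (ℓ) = 𝔪_O ^ e`;  `span_pow_eq` : `(ℓ ^ n) = 𝔪_O ^ (e * n)`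
*       `mem_maximalIdeal_pow_iff` : `c ∈ 𝔪_O ^ (e * n) ↔ ‖ι c‖ ≤ ‖ℓ‖ ^ n`
-/
import Mathlib
import Fermat.Agent.T1.LocModel46.Basic
import Fermat.Agent.RED.DESC.NumberFieldDVR27

set_option autoImplicit false

open Fermat.Agent.TW.B5.Iface
open Fermat.Agent.RED.Interface4 Fermat.Agent.RED.DESC.NumberFieldDVR27

namespace Fermat.Agent.T1.LocModel46

variable (ℓ : ℕ) [Fact ℓ.Prime] (L : IntermediateField ℚ Qbar)

theorem norm_iota_AK_le_one (c : AK (padicPlace ℓ) L) :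
    ‖padicEmbedding ℓ ((c : L) : Qbar)‖ ≤ 1 :=
  (mem_place_iff_norm ℓ).1 ((mem_AK_iff _ _ _).1 c.2)

/-- (L4c) -/
theorem mem_maximalIdeal_AK_iff (c : AK (padicPlace ℓ) L) :
    c ∈ IsLocalRing.maximalIdeal (AK (padicPlace ℓ) L) ↔
      ‖padicEmbedding ℓ ((c : L) : Qbar)‖ < 1 := by
  rw [mem_maximalIdeal_iff, ValuationSubring.valuation_lt_one_iff, coe_incl,
    valuation_lt_one_iff]

theorem natCast_ne_zero_AK : ((ℓ : ℕ) : AK (padicPlace ℓ) L) ≠ 0 := by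
  intro h
  have h1 : (((ℓ : ℕ) : AK (padicPlace ℓ) L) : L) = 0 := by rw [h]; rfl
  rw [show (((ℓ : ℕ) : AK (padicPlace ℓ) L) : L) = ((ℓ : ℕ) : L) from rfl] at h1
  exact (Fact.out : ℓ.Prime).ne_zero (by exact_mod_cast h1)

theorem iota_natCast_AK_pow (n : ℕ) :
    padicEmbedding ℓ (((((ℓ : ℕ) : AK (padicPlace ℓ) L) ^ n : AK (padicPlace ℓ) L) : L) : Qbar) =
      ((ℓ : ℕ) : Kbar ℓ) ^ n := by
  have h1 : (((((ℓ : ℕ) : AK (padicPlace ℓ) L) ^ n : AK (padicPlace ℓ) L) : L) : Qbar) =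
      ((ℓ : ℕ) : Qbar) ^ n := by
    push_cast
    rfl
  rw [h1, map_pow, map_natCast]

/-- (L4b) -/
theorem norm_le_pow_iff (c : AK (padicPlace ℓ) L) (n : ℕ) :
    ‖padicEmbedding ℓ ((c : L) : Qbar)‖ ≤ ‖((ℓ : ℕ) : Kbar ℓ)‖ ^ n ↔
      c ∈ Ideal.span {((ℓ : ℕ) : AK (padicPlace ℓ) L) ^ n} := by
  have hpos : 0 < ‖((ℓ : ℕ) : Kbar ℓ)‖ ^ n := pow_pos (norm_natCast_self_pos ℓ) n
  constructor
  · intro h
    rw [Ideal.mem_span_singleton']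
    -- `d = c / ℓ ^ n`
    have hℓL : ((ℓ : ℕ) : L) ≠ 0 := by exact_mod_cast (Fact.out : ℓ.Prime).ne_zero
    set d : L := (c : L) / ((ℓ : ℕ) : L) ^ n with hd
    have hdQ : (d : Qbar) = ((c : L) : Qbar) / ((ℓ : ℕ) : Qbar) ^ n := by
      rw [hd]; push_cast; rfl
    have hdA : d ∈ AK (padicPlace ℓ) L := by
      rw [mem_AK_iff, mem_place_iff_norm, hdQ, map_div₀, map_pow, map_natCast, norm_div, norm_pow,
        div_le_one hpos]
      exact h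
    refine ⟨⟨d, hdA⟩, ?_⟩
    apply Subtype.ext
    show d * ((ℓ : ℕ) : L) ^ n = (c : L)
    rw [hd, div_mul_cancel₀ _ (pow_ne_zero n hℓL)]
  · intro h
    rw [Ideal.mem_span_singleton'] at h
    obtain ⟨d, rfl⟩ := h
    have h1 : padicEmbedding ℓ (((d * ((ℓ : ℕ) : AK (padicPlace ℓ) L) ^ n :
        AK (padicPlace ℓ) L) : L) : Qbar) =
        padicEmbedding ℓ ((d : L) : Qbar) * ((ℓ : ℕ) : Kbar ℓ) ^ n := by
      rw [← iota_natCast_AK_pow ℓ L n, ← map_mul]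
      rfl
    rw [h1, norm_mul, norm_pow]
    calc ‖padicEmbedding ℓ ((d : L) : Qbar)‖ * ‖((ℓ : ℕ) : Kbar ℓ)‖ ^ n
        ≤ 1 * ‖((ℓ : ℕ) : Kbar ℓ)‖ ^ n := by
          gcongr
          exact norm_iota_AK_le_one ℓ L d
      _ = ‖((ℓ : ℕ) : Kbar ℓ)‖ ^ n := one_mul _

variable [FiniteDimensional ℚ L]

/-- `A ∩ L` is a discrete valuation ring (RED/DESC/NumberFieldDVR27, at the place `padicPlace ℓ`). -/
theorem isDVR_AK : IsDiscreteValuationRing (AK (padicPlace ℓ) L) :=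
  isDiscreteValuationRing_AK (padicPlace ℓ) L (Fact.out : ℓ.Prime).ne_zero (liesOverPrime ℓ)

theorem finite_residueField : Finite (IsLocalRing.ResidueField (AK (padicPlace ℓ) L)) :=
  finite_residueField_AK (padicPlace ℓ) L (Fact.out : ℓ.Prime).ne_zero (liesOverPrime ℓ)

/-- (L4a) -/
theorem exists_ramificationIdx :
    ∃ e : ℕ, 1 ≤ e ∧ Ideal.span {((ℓ : ℕ) : AK (padicPlace ℓ) L)} =
      IsLocalRing.maximalIdeal (AK (padicPlace ℓ) L) ^ e := by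
  have := isDVR_AK ℓ L
  obtain ⟨ϖ, hϖ⟩ := IsDiscreteValuationRing.exists_irreducible (AK (padicPlace ℓ) L)
  have hne : Ideal.span {((ℓ : ℕ) : AK (padicPlace ℓ) L)} ≠ ⊥ := by
    rw [ne_eq, Ideal.span_singleton_eq_bot]
    exact natCast_ne_zero_AK ℓ L
  obtain ⟨e, he⟩ := IsDiscreteValuationRing.ideal_eq_span_pow_irreducible hne hϖ
  have hm : IsLocalRing.maximalIdeal (AK (padicPlace ℓ) L) ^ e = Ideal.span {ϖ ^ e} := by
    rw [hϖ.maximalIdeal_eq, Ideal.span_singleton_pow]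
  refine ⟨e, ?_, by rw [he, hm]⟩
  by_contra h0
  have he0 : e = 0 := by omega
  rw [he0, pow_zero, Ideal.span_singleton_one, Ideal.span_singleton_eq_top] at he
  have hmem := natCast_mem_maximalIdeal (padicPlace ℓ) L (liesOverPrime ℓ)
  rw [IsLocalRing.mem_maximalIdeal, mem_nonunits_iff] at hmem
  exact hmem he

omit [FiniteDimensional ℚ L] in
theorem span_pow_eq {e : ℕ}
    (he : Ideal.span {((ℓ : ℕ) : AK (padicPlace ℓ) L)} =
      IsLocalRing.maximalIdeal (AK (padicPlace ℓ) L) ^ e) (n : ℕ) :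
    Ideal.span {((ℓ : ℕ) : AK (padicPlace ℓ) L) ^ n} =
      IsLocalRing.maximalIdeal (AK (padicPlace ℓ) L) ^ (e * n) := by
  rw [← Ideal.span_singleton_pow, he, ← pow_mul]

omit [FiniteDimensional ℚ L] in
theorem mem_maximalIdeal_pow_iff {e : ℕ}
    (he : Ideal.span {((ℓ : ℕ) : AK (padicPlace ℓ) L)} =
      IsLocalRing.maximalIdeal (AK (padicPlace ℓ) L) ^ e) (c : AK (padicPlace ℓ) L) (n : ℕ) :
    c ∈ IsLocalRing.maximalIdeal (AK (padicPlace ℓ) L) ^ (e * n) ↔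
      ‖padicEmbedding ℓ ((c : L) : Qbar)‖ ≤ ‖((ℓ : ℕ) : Kbar ℓ)‖ ^ n := by
  rw [← span_pow_eq ℓ L he n, norm_le_pow_iff]

end Fermat.Agent.T1.LocModel46
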